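import Fermat.Agent.S55.G.Rec.Loc.Unif.Spec
import Fermat.Agent.S55.G.Rec.Loc.OpenH478
import Fermat.Agent.S55.L.Inst63
import Fermat.Agent.S55.L.H715.Dict2

/-!
# S55 / G / REC / LOC, leaf LOC-UNIF-B1 `UnramDictSpec`   (helper256)

`Local.IsUnram ℤ_[q] ℚ_[q] E₀ K` (core vocabulary, base `(ℤ_q, ℚ_q)`: `E₀ˣ = Kˣ · U_{E₀}`) implies
`L.IsUnramifiedExt K E₀` (outer vocabulary: a uniformizer of a ring of integers of `K` is a
uniformizer of a ring of integers of `E₀`), for `K = fixedFld q V`, `V` open, `E₀ / K` finite.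

Proof: `A` := unit ball of `K` (a ring of integers, `L/Inst63`).  An element of `E₀` which is
integral over `ℤ_q` is integral over `A` (the structure map `ℤ_q → E₀` factors through `A`), so
the hypothesis gives `Local.IsUnram ↥A K E₀ K`, and the dictionary
`L.H715.isUnramifiedExt_of_isUnram` (base `(↥A, K)`) concludes.

Main result: `unramDict : UnramDictSpec` (no hypotheses).
-/

set_option autoImplicit false
set_option linter.style.haveILetI false
set_option linter.unusedSectionVars false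

noncomputable section

namespace Fermat.Agent.S55.G.Rec.Loc.Unif.H256

open Fermat.Agent.S55.G.Rec Fermat.Agent.S55.G.Rec.Loc Fermat.Agent.S55.G.Rec.Loc.Unif
open Fermat.Agent.S55.Local

section BaseChange

variable {A₀ F₀ : Type} [CommRing A₀] [Field F₀] [Algebra A₀ F₀]
  {K : Type} [Field K] [Algebra F₀ K] (A : ValuationSubring K)
  {E : Type} [Field E] [Algebra F₀ E] [Algebra K E] [IsScalarTower F₀ K E]

/-- If the structure map `A₀ → F₀ → K` lands in the valuation subring `A` of `K`, then every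
element of `E` integral over `A₀` is integral over `A`. -/
lemma isInt_valuationSubring_of_isInt (hA : ∀ a : A₀, algebraMap F₀ K (algebraMap A₀ F₀ a) ∈ A)
    {x : E} (hx : IsInt A₀ F₀ E x) : IsInt (↥A) K E x := by
  let φ : A₀ →+* ↥A := ((algebraMap F₀ K).comp (algebraMap A₀ F₀)).codRestrict A.toSubring hA
  have hφ : (toL (↥A) K E).comp φ = toL A₀ F₀ E := by
    ext a
    show algebraMap K E (algebraMap F₀ K (algebraMap A₀ F₀ a)) =
      algebraMap F₀ E (algebraMap A₀ F₀ a)
    rw [← IsScalarTower.algebraMap_apply F₀ K E]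
  obtain ⟨p, hp, h⟩ := hx
  refine ⟨p.map φ, hp.map φ, ?_⟩
  rw [Polynomial.eval₂_map, hφ]
  exact h

/-- The same for units. -/
lemma mem_intUnits_valuationSubring_of_mem
    (hA : ∀ a : A₀, algebraMap F₀ K (algebraMap A₀ F₀ a) ∈ A)
    {u : Eˣ} (hu : u ∈ intUnits A₀ F₀ E) : u ∈ intUnits (↥A) K E :=
  ⟨isInt_valuationSubring_of_isInt A hA hu.1, isInt_valuationSubring_of_isInt A hA hu.2⟩

/-- Base change of `Local.IsUnram` from `(A₀, F₀)` to `(↥A, K)`. -/
lemma isUnram_valuationSubring_of_isUnram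
    (hA : ∀ a : A₀, algebraMap F₀ K (algebraMap A₀ F₀ a) ∈ A)
    (h : IsUnram A₀ F₀ E K) : IsUnram (↥A) K E K := by
  intro x
  obtain ⟨y, hy⟩ := h x
  exact ⟨y, mem_intUnits_valuationSubring_of_mem A hA hy⟩

end BaseChange

/-- **LOC-UNIF-B1** (`UnramDictSpec` of `Loc/Unif/Spec.lean`). -/
theorem unramDict : UnramDictSpec := by
  intro q _ V hV E₀ _ hunr
  haveI : FiniteDimensional ℚ_[q] (fixedFld q V) := (H478.openSpec q V hV).1
  obtain ⟨A, hAint, hA⟩ := L.exists_ringOfIntegers_eq_unitBall63 q (fixedFld q V)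
  haveI : IsDiscreteValuationRing A := hAint.1
  haveI : IsAdicComplete (IsLocalRing.maximalIdeal A) A := hAint.2.1
  haveI : Finite (IsLocalRing.ResidueField A) := hAint.2.2
  refine L.H715.isUnramifiedExt_of_isUnram A E₀ ?_
  refine isUnram_valuationSubring_of_isUnram A (fun a => ?_) hunr
  rw [hA]
  have h1 : ((algebraMap ℚ_[q] (fixedFld q V) (algebraMap ℤ_[q] ℚ_[q] a) : fixedFld q V) :
      PadicAlgCl q) = algebraMap ℚ_[q] (PadicAlgCl q) (a : ℚ_[q]) := rfl
  rw [h1, norm_algebraMap']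
  exact PadicInt.norm_le_one a

example : UnramDictSpec := unramDict

end Fermat.Agent.S55.G.Rec.Loc.Unif.H256

end
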